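import Fermat.Agent.V.RR.Pack

/-!
# Program V (S27), leaf Z6 (RRCor): avoidance lemmas on the Riemann–Roch package

Owner: helper28.  Prefix `v27rc_`.  `K` infinite, any characteristic.

* `v27rc_exists_ord_eq_on` : for `deg D` large and a finite set `T` of places there is `f ∈ L(D)`
  with `ord_P f = -D(P)` for all `P ∈ T` (finite union of proper subspaces);
* `v27rc_exists_effective_avoiding` : an effective divisor in `|D|` avoiding `T`;
* `v27rc_moving` : the moving lemma for degree-zero classes;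
* `v27rc_repr` : every degree-zero class is `[E - g'·P0]` with `E ≥ 0` avoiding `P0` and `T`;
* `v27rc_exists_uniformizer` : a function regular off `P0`, vanishing simply at `Q`, and
  non-vanishing on `T`.
-/

set_option autoImplicit false
set_option linter.unusedSectionVars false
set_option linter.unusedVariables false

noncomputable section

namespace Fermat.Agent.V

open AlgebraicCurve Module Fermat.Agent.V.RR

variable {K F : Type*} [Field K] [Field F] [Algebra K F] {g : ℕ}

/-- the principal divisor of a non-zero function has degree zero and is unique. -/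
theorem v27rc_degree_of_isPrincipal [HasPrincipalDivisors K F] {D : Divisor K F}
    (hD : D ∈ Divisor.principal (K := K) (F := F)) : Divisor.degree D = 0 := by
  obtain ⟨f, hf, hDf⟩ := hD
  obtain ⟨D', hD', hdeg⟩ := HasPrincipalDivisors.exists_divisor (K := K) f hf
  have : D = D' := by
    ext v
    rw [hDf v, hD' v]
  rw [this, hdeg]

/-- `f ∈ L(D)`, `f ∉ L(D - P)` pins down the order at `P`. -/
theorem v27rc_ord_eq_of_not_mem {D : Divisor K F} {P : Place K F} {f : F} (hf0 : f ≠ 0)
    (hf : f ∈ riemannRochSpace D) (hf' : f ∉ riemannRochSpace (D - Finsupp.single P 1)) :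
    P.ord f = -D P := by
  classical
  rw [mem_riemannRochSpace_iff] at hf hf'
  have hP1 := (hf P).resolve_left hf0
  by_contra hne'
  apply hf'
  intro v
  right
  by_cases hv : v = P
  · subst hv
    rw [Finsupp.sub_apply, Finsupp.single_eq_same]
    omega
  · rw [Finsupp.sub_apply, Finsupp.single_eq_of_ne hv, sub_zero]
    exact (hf v).resolve_left hf0

/-- (RC1) a function in `L(D)` with exact order `-D(P)` at every place of a finite set. -/
theorem v27rc_exists_ord_eq_on [Infinite K] (R : V27RR K F g) (D : Divisor K F)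
    (T : Finset (Place K F)) (hg : (g : ℤ) ≤ Divisor.degree D)
    (hD : ∀ P ∈ T, 2 * (g : ℤ) - 2 + P.deg < Divisor.degree D) :
    ∃ f : F, f ≠ 0 ∧ f ∈ riemannRochSpace D ∧ ∀ P ∈ T, P.ord f = -D P := by
  classical
  -- the proper subspaces of `L(D)`
  let E := ↥(riemannRochSpace D)
  let S : Place K F → Submodule K E := fun P =>
    (riemannRochSpace (D - Finsupp.single P 1)).comap (riemannRochSpace D).subtype
  let s : Finset (Submodule K E) := insert ⊥ (T.image S)
  have hnt : Nontrivial E := by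
    obtain ⟨f, hf0, hf⟩ := R.exists_ne_zero_mem hg
    exact ⟨⟨⟨f, hf⟩, 0, fun h => hf0 (congrArg Subtype.val h)⟩⟩
  have htop : (⊤ : Submodule K E) ∉ s := by
    intro h
    rcases Finset.mem_insert.mp h with h | h
    · exact top_ne_bot h
    · obtain ⟨P, hP, hSP⟩ := Finset.mem_image.mp h
      obtain ⟨f, hf0, hf, hord⟩ := R.exists_ord_eq (D := D) P (hD P hP)
      have hmem : (⟨f, hf⟩ : E) ∈ S P := by
        rw [hSP]
        exact Submodule.mem_top
      have hf' : f ∈ riemannRochSpace (D - Finsupp.single P 1) := hmem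
      rw [mem_riemannRochSpace_iff] at hf'
      have := (hf' P).resolve_left hf0
      rw [Finsupp.sub_apply, Finsupp.single_eq_same, hord] at this
      omega
  have hne := Subspace.biUnion_ne_univ_of_top_notMem htop
  obtain ⟨x, hx⟩ : ∃ x : E, x ∉ ⋃ p ∈ s, (p : Set E) := by
    by_contra hall
    push Not at hall
    exact hne (Set.eq_univ_of_forall hall)
  have hx' : ∀ p ∈ s, x ∉ p := by
    intro p hp hxp
    exact hx (Set.mem_biUnion hp hxp)
  have hx0 : x ≠ 0 := by
    intro h0
    exact hx' ⊥ (Finset.mem_insert_self _ _) (by rw [h0]; exact Submodule.zero_mem _)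
  have hf0 : (x : F) ≠ 0 := fun h => hx0 (Subtype.ext h)
  refine ⟨x, hf0, x.2, fun P hP => ?_⟩
  apply v27rc_ord_eq_of_not_mem hf0 x.2
  intro hmem
  exact hx' (S P) (Finset.mem_insert_of_mem (Finset.mem_image_of_mem S hP)) hmem

/-- (RC1) in the degree-one situation. -/
theorem v27rc_exists_ord_eq_on' [Infinite K] (R : V27RR K F g)
    (hdeg1 : ∀ v : Place K F, v.deg = 1) (D : Divisor K F)
    (T : Finset (Place K F)) (hD : 2 * (g : ℤ) - 1 < Divisor.degree D) :
    ∃ f : F, f ≠ 0 ∧ f ∈ riemannRochSpace D ∧ ∀ P ∈ T, P.ord f = -D P := by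
  apply v27rc_exists_ord_eq_on R D T
  · have : (0 : ℤ) ≤ g := Int.natCast_nonneg _
    linarith
  · intro P _
    rw [hdeg1 P]
    push_cast
    linarith

/-- (RC2) an effective divisor in the class of `D` avoiding a finite set. -/
theorem v27rc_exists_effective_avoiding [Infinite K] (R : V27RR K F g)
    (hdeg1 : ∀ v : Place K F, v.deg = 1) (D : Divisor K F)
    (T : Finset (Place K F)) (hD : 2 * (g : ℤ) - 1 < Divisor.degree D) :
    ∃ E : Divisor K F, 0 ≤ E ∧ E - D ∈ Divisor.principal (K := K) (F := F) ∧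
      ∀ P ∈ T, E P = 0 := by
  obtain ⟨f, hf0, hf, hord⟩ := v27rc_exists_ord_eq_on' R hdeg1 D T hD
  have := R.hasDiv
  obtain ⟨Df, hDf, -⟩ := HasPrincipalDivisors.exists_divisor (K := K) f hf0
  refine ⟨D + Df, ?_, ?_, ?_⟩
  · rw [Finsupp.le_def]
    intro v
    rw [Finsupp.zero_apply, Finsupp.add_apply, hDf v]
    have := ((mem_riemannRochSpace_iff.mp hf) v).resolve_left hf0
    linarith
  · rw [add_sub_cancel_left]
    exact ⟨f, hf0, hDf⟩
  · intro P hP
    rw [Finsupp.add_apply, hDf P, hord P hP]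
    ring

/-- (RC3) the moving lemma. -/
theorem v27rc_moving [Infinite K] (R : V27RR K F g)
    (hdeg1 : ∀ v : Place K F, v.deg = 1) (X : Divisor K F) (hX : Divisor.degree X = 0)
    (T : Finset (Place K F)) (Q : Place K F) (hQ : Q ∉ T) :
    ∃ X' : Divisor K F, X' - X ∈ Divisor.principal (K := K) (F := F) ∧ ∀ P ∈ T, X' P = 0 := by
  classical
  set D : Divisor K F := X + Finsupp.single Q (2 * (g : ℤ)) with hDdef
  have hdegD : Divisor.degree D = 2 * (g : ℤ) := by
    rw [hDdef, map_add, hX, Divisor.degree_single, hdeg1 Q]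
    simp
  obtain ⟨E, hE, hpr, hav⟩ := v27rc_exists_effective_avoiding R hdeg1 D T (by rw [hdegD]; linarith)
  refine ⟨E - Finsupp.single Q (2 * (g : ℤ)), ?_, ?_⟩
  · have : E - Finsupp.single Q (2 * (g : ℤ)) - X = E - D := by
      rw [hDdef]
      abel
    rw [this]
    exact hpr
  · intro P hP
    have hPQ : P ≠ Q := fun h => hQ (h ▸ hP)
    rw [Finsupp.sub_apply, hav P hP, Finsupp.single_eq_of_ne hPQ, sub_zero]

/-- (RC4) every class of degree zero is `[E - g'·P0]`, `E` effective of degree `g'`, avoiding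
`P0` and a given finite set. -/
theorem v27rc_repr [Infinite K] (R : V27RR K F g)
    (hdeg1 : ∀ v : Place K F, v.deg = 1) (P0 : Place K F) (g' : ℕ) (hg' : 2 * g ≤ g')
    (X : Divisor K F) (hX : Divisor.degree X = 0) (T : Finset (Place K F)) :
    ∃ E : Divisor K F, 0 ≤ E ∧ Divisor.degree E = g' ∧ E P0 = 0 ∧ (∀ P ∈ T, E P = 0) ∧
      E - Finsupp.single P0 (g' : ℤ) - X ∈ Divisor.principal (K := K) (F := F) := by
  classical
  set D : Divisor K F := X + Finsupp.single P0 (g' : ℤ) with hDdef
  have hdegD : Divisor.degree D = (g' : ℤ) := by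
    rw [hDdef, map_add, hX, Divisor.degree_single, hdeg1 P0]
    simp
  have hg'' : (2 * g : ℤ) ≤ g' := by exact_mod_cast hg'
  obtain ⟨E, hE, hpr, hav⟩ :=
    v27rc_exists_effective_avoiding R hdeg1 D (insert P0 T) (by rw [hdegD]; linarith)
  have := R.hasDiv
  refine ⟨E, hE, ?_, hav P0 (Finset.mem_insert_self _ _),
    fun P hP => hav P (Finset.mem_insert_of_mem hP), ?_⟩
  · have h0 := v27rc_degree_of_isPrincipal hpr
    rw [map_sub, hdegD] at h0
    linarith
  · have : E - Finsupp.single P0 (g' : ℤ) - X = E - D := by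
      rw [hDdef]
      abel
    rw [this]
    exact hpr

/-- (RC5) a function regular off `P0`, with a simple zero at `Q` and of order zero on `T`. -/
theorem v27rc_exists_uniformizer [Infinite K] (R : V27RR K F g)
    (hdeg1 : ∀ v : Place K F, v.deg = 1) (P0 Q : Place K F) (hQ : Q ≠ P0)
    (T : Finset (Place K F)) (hT : Q ∉ T) :
    ∃ u : F, u ≠ 0 ∧ (∀ v : Place K F, v ≠ P0 → 0 ≤ v.ord u) ∧
      -(2 * (g : ℤ) + 1) ≤ P0.ord u ∧ Q.ord u = 1 ∧ ∀ P ∈ T, P ≠ P0 → P.ord u = 0 := by
  classical
  set D : Divisor K F := Finsupp.single P0 (2 * (g : ℤ) + 1) - Finsupp.single Q 1 with hDdef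
  have hdegD : Divisor.degree D = 2 * (g : ℤ) := by
    rw [hDdef, map_sub, Divisor.degree_single, Divisor.degree_single, hdeg1 P0, hdeg1 Q]
    simp
  obtain ⟨u, hu0, hu, hord⟩ :=
    v27rc_exists_ord_eq_on' R hdeg1 D (insert Q (T.erase P0)) (by rw [hdegD]; linarith)
  have hDQ : D Q = -1 := by
    rw [hDdef, Finsupp.sub_apply, Finsupp.single_eq_of_ne hQ, Finsupp.single_eq_same]
    ring
  have hDP0 : D P0 = 2 * (g : ℤ) + 1 := by
    rw [hDdef, Finsupp.sub_apply, Finsupp.single_eq_same, Finsupp.single_eq_of_ne (Ne.symm hQ)]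
    ring
  have hDv : ∀ v : Place K F, v ≠ P0 → v ≠ Q → D v = 0 := by
    intro v h1 h2
    rw [hDdef, Finsupp.sub_apply, Finsupp.single_eq_of_ne h1, Finsupp.single_eq_of_ne h2]
    ring
  have hmem := mem_riemannRochSpace_iff.mp hu
  refine ⟨u, hu0, ?_, ?_, ?_, ?_⟩
  · intro v hv
    have := (hmem v).resolve_left hu0
    by_cases hvQ : v = Q
    · rw [hvQ, hDQ] at this
      rw [hvQ]
      linarith
    · rw [hDv v hv hvQ] at this
      linarith
  · have := (hmem P0).resolve_left hu0
    rw [hDP0] at this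
    exact this
  · rw [hord Q (Finset.mem_insert_self _ _), hDQ]
    ring
  · intro P hP hP0
    have hPQ : P ≠ Q := fun h => hT (h ▸ hP)
    rw [hord P (Finset.mem_insert_of_mem (Finset.mem_erase.mpr ⟨hP0, hP⟩)), hDv P hP0 hPQ]
    ring

end Fermat.Agent.V

end
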